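import Fermat.Agent.S59.G4.Spec
import Fermat.Agent.S31.H862.Reduced
import Fermat.Agent.S31.H262.Reduced
import Fermat.Agent.S23

/-!
# Row S59, layer G4, piece RED (helper547)

`red : Fermat.Agent.S59.G4.RedStatement` — the Prelude ring `CuspForm.heckeLocal N S 𝒪 θ`
is reduced whenever `S` contains the primes dividing `N`.

Route: the anemic Hecke algebra `𝕋 = heckeAlgebra N 2 S` is reduced (`S31.H862`, Petersson);
`heckeLatticeAlgebra N S ≅ 𝕋` (Prelude `latticeRestrictHom_bijective` + landed S23);
`𝒪 ⊗[ℤ] B ↪ Frac 𝒪 ⊗[ℤ] B` for the flat `ℤ`-module `B`, and the target is reduced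
(`S31.H262.isReduced_field_tensor`); localisations of reduced rings are reduced.

Reusable general lemmas: `isReduced_tensor_of_injective`, `isReduced_tensor_of_finite_free`.
-/

set_option autoImplicit false
set_option linter.style.haveILetI false

open scoped TensorProduct

namespace Fermat.Agent.S59.G4.H547

/-- If a ring `𝒪` embeds into a field `K` of characteristic zero and `B` is a reduced ring,
finite and free over `ℤ`, then `𝒪 ⊗[ℤ] B` is reduced. -/
theorem isReduced_tensor_of_injective (𝒪 : Type) [CommRing 𝒪]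
    (K : Type) [Field K] [CharZero K] (φ : 𝒪 →+* K) (hφ : Function.Injective φ)
    (B : Type) [CommRing B] [Module.Finite ℤ B] [Module.Free ℤ B] [IsReduced B] :
    IsReduced (𝒪 ⊗[ℤ] B) := by
  haveI : IsReduced (K ⊗[ℤ] B) := Fermat.Agent.S31.H262.isReduced_field_tensor B K
  let f : (𝒪 ⊗[ℤ] B) →ₐ[ℤ] (K ⊗[ℤ] B) :=
    Algebra.TensorProduct.map φ.toIntAlgHom (AlgHom.id ℤ B)
  have hf : Function.Injective f := by
    have h1 : Function.Injective (LinearMap.rTensor B φ.toIntAlgHom.toLinearMap) :=
      Module.Flat.rTensor_preserves_injective_linearMap _ hφ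
    intro x y hxy
    apply h1
    exact hxy
  exact isReduced_of_injective f hf

/-- For a domain `𝒪` of characteristic zero and a reduced ring `B`, finite and free over `ℤ`,
the base change `𝒪 ⊗[ℤ] B` is reduced. -/
theorem isReduced_tensor_of_finite_free (𝒪 : Type) [CommRing 𝒪] [IsDomain 𝒪] [CharZero 𝒪]
    (B : Type) [CommRing B] [Module.Finite ℤ B] [Module.Free ℤ B] [IsReduced B] :
    IsReduced (𝒪 ⊗[ℤ] B) := by
  haveI : CharZero (FractionRing 𝒪) :=
    charZero_of_injective_algebraMap (IsFractionRing.injective 𝒪 (FractionRing 𝒪))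
  exact isReduced_tensor_of_injective 𝒪 (FractionRing 𝒪) (algebraMap 𝒪 (FractionRing 𝒪))
    (IsFractionRing.injective 𝒪 (FractionRing 𝒪)) B

/-- **RED.** The local Hecke algebra of the Prelude is reduced. -/
theorem red : RedStatement := by
  intro N _ S hNS 𝒪 _ _ _ _ _ θ
  have hint : CuspForm.HasIntegralStructure N 2 := Fermat.Agent.S23.result N
  haveI : IsReduced (CuspForm.heckeAlgebra N 2 S) :=
    Fermat.Agent.S31.H862.heckeAlgebra_isReduced N S hNS
  let e : CuspForm.heckeAlgebra N 2 S ≃ₐ[ℤ] CuspForm.heckeLatticeAlgebra N S :=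
    AlgEquiv.ofBijective (CuspForm.latticeRestrictHom N S)
      (CuspForm.latticeRestrictHom_bijective N S hint)
  haveI : IsReduced (CuspForm.heckeLatticeAlgebra N S) :=
    isReduced_of_injective e.symm e.symm.injective
  haveI : IsReduced (CuspForm.heckeBaseAlgebra N S 𝒪) :=
    isReduced_tensor_of_finite_free 𝒪 (CuspForm.heckeLatticeAlgebra N S)
  exact isReduced_localizationPreserves (CuspForm.heckeLocalSubmonoid N S 𝒪 θ)
    (CuspForm.heckeLocal N S 𝒪 θ) inferInstance

end Fermat.Agent.S59.G4.H547
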